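import Fermat.Agent.S48.Betti.Lattice
import Fermat.Agent.GAL.Tors.Betti

/-!
# S48 / BETTI : the characters of `Γ₁(M)` attached to the period lattice

`x ∈ (ℤ/m)^r ↦ χ_x : Γ₁(M) → μ_m`, `χ_x γ = exp (2 π i (∑ n_i x_i) / m)` if `perPi1 γ = ∑ n_i b_i`.
* `χ_x` kills all non hyperbolic elements (`trace² ≤ 4`);
* `x ↦ χ_x` is an injective homomorphism (NOT claimed to be onto: no Eichler-Shimura needed);
* Hecke equivariance in relational form (`charOf1_T`, `charOf1_D`).
-/

set_option autoImplicit false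

open scoped MatrixGroups
open CongruenceSubgroup Matrix.SpecialLinearGroup

namespace Fermat.Agent.S48.Betti

open Fermat.Agent.GAL.Tors (zetaHom zetaHom_bijective coe_zetaHom coe_zetaHom_castHom)

noncomputable section

variable (M : ℕ) [NeZero M]

/-- the period homomorphism kills all non hyperbolic elements. -/
theorem perPi1_eq_zero_of_trace_le (γ : Gamma1 M)
    (h : ((γ : SL(2, ℤ)) : Matrix (Fin 2) (Fin 2) ℤ).trace ^ 2 ≤ 4) :
    perPi1 M (Additive.ofMul γ) = 0 := by
  rcases h.lt_or_eq with h | h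
  · have h1 : γ ^ 12 = 1 := Subtype.ext (S16.Lower.pow_twelve_eq_one_of_trace _ h)
    have h2 : (12 : ℕ) • perPi1 M (Additive.ofMul γ) = 0 := by
      rw [← map_nsmul, ← ofMul_pow, h1, ofMul_one, map_zero]
    have := isAddTorsionFree_perLat1 M
    exact (nsmul_eq_zero_iff.mp h2).resolve_right (by norm_num)
  · exact perPi1_eq_zero_of_trace M γ h

/-- A character of `Γ₁(M)` is *non-hyperbolically trivial* if it kills all elliptic and parabolic
elements (and `± 1`). -/
def NeTrivial1 {M : ℕ} {A : Type*} [Monoid A] (χ : Gamma1 M →* A) : Prop :=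
  ∀ γ : Gamma1 M, (((γ : SL(2, ℤ)) : Matrix (Fin 2) (Fin 2) ℤ)).trace ^ 2 ≤ 4 → χ γ = 1

/-- The group of characters `Γ₁(M) → μ_m` killing all non-hyperbolic elements. -/
def neChars1 (m : ℕ) : Subgroup (Gamma1 M →* rootsOfUnity m ℂ) where
  carrier := {χ | NeTrivial1 χ}
  one_mem' := fun _ _ => rfl
  mul_mem' := by
    intro a b ha hb γ hγ
    rw [MonoidHom.mul_apply, ha γ hγ, hb γ hγ, one_mul]
  inv_mem' := by
    intro a ha γ hγ
    rw [MonoidHom.inv_apply, ha γ hγ, inv_one]

omit [NeZero M] in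
theorem mem_neChars1 {m : ℕ} {χ : Gamma1 M →* rootsOfUnity m ℂ} :
    χ ∈ neChars1 M m ↔ NeTrivial1 χ := Iff.rfl

/-- The homomorphism `L → A` with prescribed values on the basis. -/
def latHom1 {A : Type*} [AddCommGroup A] (x : Fin (bettiRank1 M) → A) : perLat1 M →+ A :=
  ((bettiBasis1 M).constr ℤ x).toAddMonoidHom

theorem latHom1_basis {A : Type*} [AddCommGroup A] (x : Fin (bettiRank1 M) → A)
    (i : Fin (bettiRank1 M)) : latHom1 M x (bettiBasis1 M i) = x i := by
  simp [latHom1]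

theorem latHom1_ext {A : Type*} [AddCommGroup A] {l l' : perLat1 M →+ A}
    (h : ∀ i, l (bettiBasis1 M i) = l' (bettiBasis1 M i)) : l = l' := by
  have : l.toIntLinearMap = l'.toIntLinearMap := (bettiBasis1 M).ext h
  ext v
  exact LinearMap.congr_fun this v

theorem latHom1_add {A : Type*} [AddCommGroup A] (x y : Fin (bettiRank1 M) → A) :
    latHom1 M (x + y) = latHom1 M x + latHom1 M y :=
  latHom1_ext M fun i => by simp [latHom1_basis]

theorem latHom1_mulVec {R : Type*} [CommRing R]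
    {A : Module.End ℂ (CuspForm (Gamma1 M) 2)} (hA : Stable M A) (x : Fin (bettiRank1 M) → R) :
    latHom1 M (((latMat hA).map (Int.castRingHom R)).mulVec x) = (latHom1 M x).comp (latOp hA) := by
  refine latHom1_ext M fun i => ?_
  rw [latHom1_basis, AddMonoidHom.comp_apply, latOp_basis, map_sum, Matrix.mulVec, dotProduct]
  refine Finset.sum_congr rfl fun j _ => ?_
  rw [map_zsmul, latHom1_basis, Matrix.map_apply, zsmul_eq_mul]
  rfl

theorem latHom1_comp {A B : Type*} [AddCommGroup A] [AddCommGroup B] (g : A →+ B)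
    (x : Fin (bettiRank1 M) → A) : latHom1 M (fun i => g (x i)) = g.comp (latHom1 M x) :=
  latHom1_ext M fun i => by simp [latHom1_basis]

/-- The character attached to `x ∈ (ℤ/m)^r`. -/
def chiOf1 (m : ℕ) [NeZero m] (x : Fin (bettiRank1 M) → ZMod m) : Gamma1 M →* rootsOfUnity m ℂ :=
  MonoidHom.toAdditive.symm ((zetaHom m).comp ((latHom1 M x).comp (perPi1 M)))

theorem chiOf1_apply (m : ℕ) [NeZero m] (x : Fin (bettiRank1 M) → ZMod m) (γ : Gamma1 M) :
    chiOf1 M m x γ = Additive.toMul (zetaHom m (latHom1 M x (perPi1 M (Additive.ofMul γ)))) := rfl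

theorem chiOf1_neTrivial (m : ℕ) [NeZero m] (x : Fin (bettiRank1 M) → ZMod m) :
    NeTrivial1 (chiOf1 M m x) := by
  intro γ hγ
  rw [chiOf1_apply, perPi1_eq_zero_of_trace_le M γ hγ, map_zero, map_zero, toMul_zero]

/-- `x ↦ χ_x` as a homomorphism. -/
def charOf1 (m : ℕ) [NeZero m] : (Fin (bettiRank1 M) → ZMod m) →+ Additive (neChars1 M m) where
  toFun x := Additive.ofMul ⟨chiOf1 M m x, chiOf1_neTrivial M m x⟩
  map_zero' := by
    apply Additive.toMul.injective
    apply Subtype.ext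
    ext γ : 1
    show chiOf1 M m 0 γ = 1
    have : latHom1 M (0 : Fin (bettiRank1 M) → ZMod m) = 0 :=
      latHom1_ext M fun i => by simp [latHom1_basis]
    rw [chiOf1_apply, this, AddMonoidHom.zero_apply, map_zero, toMul_zero]
  map_add' x y := by
    apply Additive.toMul.injective
    apply Subtype.ext
    ext γ : 1
    show chiOf1 M m (x + y) γ = chiOf1 M m x γ * chiOf1 M m y γ
    rw [chiOf1_apply, chiOf1_apply, chiOf1_apply, latHom1_add, AddMonoidHom.add_apply, map_add,
      toMul_add]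

theorem charOf1_apply (m : ℕ) [NeZero m] (x : Fin (bettiRank1 M) → ZMod m) :
    (Additive.toMul (charOf1 M m x) : neChars1 M m).1 = chiOf1 M m x := rfl

theorem charOf1_injective (m : ℕ) [NeZero m] : Function.Injective (charOf1 M m) := by
  rw [injective_iff_map_eq_zero]
  intro x hx
  have h1 : ∀ γ : Gamma1 M, chiOf1 M m x γ = 1 := by
    intro γ
    rw [← charOf1_apply, hx]
    rfl
  have h2 : ∀ v : perLat1 M, latHom1 M x v = 0 := by
    intro v
    obtain ⟨γ, rfl⟩ := perPi1_surjective M v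
    have := h1 (Additive.toMul γ)
    rw [chiOf1_apply, ofMul_toMul] at this
    have h3 : zetaHom m (latHom1 M x (perPi1 M γ)) = 0 := Additive.toMul.injective this
    exact (injective_iff_map_eq_zero (zetaHom m)).mp (zetaHom_bijective m).1 _ h3
  funext i
  rw [← latHom1_basis M x i, h2]
  rfl

/-- **Hecke equivariance**, `T_p`, relational form. -/
theorem chiOf1_T (m : ℕ) [NeZero m] (p : HK.GoodPrime M) [NeZero p.1]
    (x : Fin (bettiRank1 M) → ZMod m) (γ : Gamma1 M) (D : HeckeDecomp1 M p γ) :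
    chiOf1 M m (((bettiT1 M p).map (Int.castRingHom (ZMod m))).mulVec x) γ
      = ∏ y, chiOf1 M m x (D.γ' y) := by
  rw [chiOf1_apply, bettiT1, latHom1_mulVec, AddMonoidHom.comp_apply,
    latOp_heckeT_perPi1 M p γ D, map_sum, map_sum, toMul_sum]
  rfl

/-- **Hecke equivariance**, `⟨d⟩`, relational form. -/
theorem chiOf1_D (m : ℕ) [NeZero m] (d : (ZMod M)ˣ) (x : Fin (bettiRank1 M) → ZMod m)
    {δ : SL(2, ℤ)} (hδ : δ ∈ Gamma0 M) (hd : ((δ 1 1 : ℤ) : ZMod M) = (d : ZMod M))
    (γ γ' : Gamma1 M) (h : δ * (γ : SL(2, ℤ)) = (γ' : SL(2, ℤ)) * δ) :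
    chiOf1 M m (((bettiD1 M d).map (Int.castRingHom (ZMod m))).mulVec x) γ = chiOf1 M m x γ' := by
  rw [chiOf1_apply, bettiD1, latHom1_mulVec, AddMonoidHom.comp_apply,
    latOp_diamond_perPi1 M d hδ hd γ γ' h]
  rfl

/-- compatibility with reduction `ℤ/m' → ℤ/m`. -/
theorem chiOf1_castHom {m m' : ℕ} [NeZero m] [NeZero m'] (h : m ∣ m')
    (x : Fin (bettiRank1 M) → ZMod m') (γ : Gamma1 M) :
    (((chiOf1 M m (fun i => ZMod.castHom h (ZMod m) (x i)) γ : rootsOfUnity m ℂ) : ℂˣ) : ℂ)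
      = (((chiOf1 M m' x γ : rootsOfUnity m' ℂ) : ℂˣ) : ℂ) ^ (m' / m) := by
  rw [chiOf1_apply, chiOf1_apply, ← coe_zetaHom_castHom h]
  have h2 : latHom1 M (fun i => ZMod.castHom h (ZMod m) (x i))
      = (ZMod.castHom h (ZMod m)).toAddMonoidHom.comp (latHom1 M x) :=
    latHom1_comp M (ZMod.castHom h (ZMod m)).toAddMonoidHom x
  rw [h2]
  rfl

end

end Fermat.Agent.S48.Betti
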