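import Fermat.Agent.S48.Betti.Period
import Fermat.Agent.GAL.Betti

/-!
# S48 / BETTI : Hecke decompositions for `Γ₁(M)` and the transfer formulas for periods

`alpha p x = δ_x α_x` (`x ∈ ℙ¹(𝔽_p)`, `δ_x = Coset_dl p x`, `α_x = heckeRep p x`) are the coset
representatives of `T_p` on `Γ₁(M)`.  For `γ ∈ Γ₁(M)`: `alpha x * γ = γ'_x * alpha (σ x)` with
`γ'_x ∈ Γ₁(M)` (`HeckeDecomp1`).  Then `per (T_p f) γ = ∑_x per f γ'_x`, and
`per (⟨d⟩ f) γ = per f γ'` if `δ γ = γ' δ`, `δ ∈ Γ₀(M)` with lower right entry `d`.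
-/

set_option autoImplicit false

open UpperHalfPlane
open scoped MatrixGroups ModularForm
open CongruenceSubgroup Matrix.SpecialLinearGroup
open P2MW.S_ModularForm_heckeT_slash_eq_self_of_mem_Gamma0.ModularForm.HeckeSlashInvariance

namespace Fermat.Agent.S48.Betti

noncomputable section

variable (M : ℕ) [NeZero M]

/-- The coset representatives of `T_p` for `Γ₁(M)`. -/
def alpha (p : HK.GoodPrime M) (x : OnePoint (ZMod p.1)) : GL (Fin 2) ℝ :=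
  mapGL ℝ (HK.Coset_dl p x) * heckeRep p.1 x

theorem alpha_det_pos (p : HK.GoodPrime M) (x : OnePoint (ZMod p.1)) :
    0 < (alpha M p x).val.det := by
  have h := GAL.heckeRep_det_pos p.1 x
  have h1 : (mapGL ℝ (HK.Coset_dl p x)).val.det = 1 := by
    rw [← Matrix.GeneralLinearGroup.val_det_apply]; simp
  rw [alpha, Units.val_mul, Matrix.det_mul, h1, one_mul]
  exact h

theorem coe_heckeT_eq_sum (p : HK.GoodPrime M) [NeZero p.1] (f : CuspForm (Gamma1 M) 2) :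
    (⇑(HK.heckeT 2 p f) : ℍ → ℂ) = ∑ x, (⇑f : ℍ → ℂ) ∣[(2 : ℤ)] alpha M p x := by
  rw [HK.coe_heckeT, HK.Coset_heckeFun_eq_sum]
  refine Finset.sum_congr rfl fun x _ => ?_
  rw [alpha, SlashAction.slash_mul]
  rfl

omit [NeZero M] in
/-- an element of `Γ₀(M)` with lower right entry `1` lies in `Γ₁(M)`. -/
theorem mem_Gamma1_of_mem_Gamma0 {A : SL(2, ℤ)} (hA : A ∈ Gamma0 M)
    (h : ((A 1 1 : ℤ) : ZMod M) = 1) : A ∈ Gamma1 M := by
  rw [Gamma0_mem] at hA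
  rw [Gamma1_mem]
  refine ⟨?_, h, hA⟩
  have h1 := A.det_coe
  rw [Matrix.det_fin_two] at h1
  have h2 := congrArg (Int.cast : ℤ → ZMod M) h1
  push_cast at h2
  rw [hA, h] at h2
  simpa using h2

omit [NeZero M] in
theorem apply_one_one_of_mem_Gamma1 {A : SL(2, ℤ)} (hA : A ∈ Gamma1 M) :
    ((A 1 1 : ℤ) : ZMod M) = 1 := ((Gamma1_mem M A).mp hA).2.1

theorem isUnit_Coset_wt (p : HK.GoodPrime M) (x : OnePoint (ZMod p.1)) :
    IsUnit (HK.Coset_wt M p.1 x) := by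
  induction x using OnePoint.rec with
  | infty =>
    show IsUnit (p.1 : ZMod M)
    rw [← HK.GoodPrime.coe_unit]
    exact p.unit.isUnit
  | coe j => exact isUnit_one

/-- A *Hecke decomposition* of `γ ∈ Γ₁(M)`: `alpha x * γ = γ'_x * alpha (σ x)`. -/
structure HeckeDecomp1 (p : HK.GoodPrime M) (γ : Gamma1 M) where
  σ : Equiv.Perm (OnePoint (ZMod p.1))
  γ' : OnePoint (ZMod p.1) → Gamma1 M
  rel : ∀ x, alpha M p x * mapGL ℝ (γ : SL(2, ℤ)) = mapGL ℝ (γ' x : SL(2, ℤ)) * alpha M p (σ x)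

theorem exists_transfer1 (p : HK.GoodPrime M) [Fact p.1.Prime] (γ : Gamma1 M)
    (x : OnePoint (ZMod p.1)) :
    ∃ γ' : Gamma1 M, alpha M p x * mapGL ℝ (γ : SL(2, ℤ))
      = mapGL ℝ (γ' : SL(2, ℤ)) * alpha M p (redMatrix p.1 (γ : SL(2, ℤ)) • x) := by
  have hγ0 : (γ : SL(2, ℤ)) ∈ Gamma0 M := Gamma1_in_Gamma0 M γ.2
  have hcN : (M : ℤ) ∣ (γ : SL(2, ℤ)) 1 0 :=
    (ZMod.intCast_zmod_eq_zero_iff_dvd _ _).mp (Gamma0_mem.mp hγ0)
  obtain ⟨g', hg', hwt, hmul⟩ := HK.Coset_heckeRep_mul p.2.2 (γ : SL(2, ℤ)) hcN x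
  have hg'N : g' ∈ Gamma0 M :=
    Gamma0_mem.mpr ((ZMod.intCast_zmod_eq_zero_iff_dvd _ _).mpr hg')
  set y := redMatrix p.1 (γ : SL(2, ℤ)) • x with hy
  set X : SL(2, ℤ) := HK.Coset_dl p x * g' * (HK.Coset_dl p y)⁻¹ with hX
  have hX0 : X ∈ Gamma0 M :=
    Subgroup.mul_mem _ (Subgroup.mul_mem _ (HK.Coset_dl_mem p x) hg'N)
      (Subgroup.inv_mem _ (HK.Coset_dl_mem p y))
  have hXmul : X * HK.Coset_dl p y = HK.Coset_dl p x * g' := by
    rw [hX, inv_mul_cancel_right]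
  have h11 : ((X 1 1 : ℤ) : ZMod M) = 1 := by
    have h1 := HK.Coset_mul_apply_one_one X (HK.Coset_dl p y) hX0
    rw [hXmul, HK.Coset_mul_apply_one_one _ _ (HK.Coset_dl_mem p x), HK.Coset_dl_apply,
      HK.Coset_dl_apply, hwt, apply_one_one_of_mem_Gamma1 M γ.2, one_mul] at h1
    exact (isUnit_Coset_wt M p y).mul_right_cancel (by rw [one_mul]; exact h1.symm)
  refine ⟨⟨X, mem_Gamma1_of_mem_Gamma0 M hX0 h11⟩, ?_⟩
  rw [alpha, alpha, mul_assoc, hmul, ← mul_assoc, ← mul_assoc, ← map_mul, ← map_mul]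
  show mapGL ℝ (HK.Coset_dl p x * g') * _ = mapGL ℝ (X * HK.Coset_dl p y) * _
  rw [hXmul]

theorem nonempty_heckeDecomp1 (p : HK.GoodPrime M) (γ : Gamma1 M) :
    Nonempty (HeckeDecomp1 M p γ) := by
  have : Fact p.1.Prime := ⟨p.2.1⟩
  choose γ' hγ' using exists_transfer1 M p γ
  exact ⟨⟨MulAction.toPerm (redMatrix p.1 (γ : SL(2, ℤ))), γ', hγ'⟩⟩

/-- **Transfer formula** for `T_p`. -/
theorem per1_heckeT (p : HK.GoodPrime M) [NeZero p.1] (f : CuspForm (Gamma1 M) 2) (γ : Gamma1 M)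
    (D : HeckeDecomp1 M p γ) :
    per1 M (HK.heckeT 2 p f) (Additive.ofMul γ) = ∑ x, per1 M f (Additive.ofMul (D.γ' x)) :=
  per1_hecke M (alpha M p) (alpha_det_pos M p) f _ (coe_heckeT_eq_sum M p f) γ D.σ D.γ' D.rel

/-- **Transfer formula** for `⟨d⟩`. -/
theorem per1_diamond (d : (ZMod M)ˣ) (f : CuspForm (Gamma1 M) 2) {δ : SL(2, ℤ)}
    (hδ : δ ∈ Gamma0 M) (hd : ((δ 1 1 : ℤ) : ZMod M) = (d : ZMod M)) (γ γ' : Gamma1 M)
    (h : δ * (γ : SL(2, ℤ)) = (γ' : SL(2, ℤ)) * δ) :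
    per1 M (HK.diamond 2 d f) (Additive.ofMul γ) = per1 M f (Additive.ofMul γ') := by
  have hdet : 0 < (mapGL ℝ δ).val.det := by
    have h1 : (mapGL ℝ δ).val.det = 1 := by
      rw [← Matrix.GeneralLinearGroup.val_det_apply]; simp
    rw [h1]; exact one_pos
  have := per1_hecke M (ι := Unit) (fun _ => mapGL ℝ δ) (fun _ => hdet) f (HK.diamond 2 d f)
    (by
      rw [← HK.slash_eq_diamond f hδ d hd]
      simp only [Finset.univ_unique, Finset.sum_singleton]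
      rfl) γ 1 (fun _ => γ') (fun _ => by
      rw [← map_mul, h, map_mul])
  simpa using this

/-- conjugation of `Γ₁(M)` by an element of `Γ₀(M)`. -/
theorem conj_mem_Gamma1 {δ : SL(2, ℤ)} (hδ : δ ∈ Gamma0 M) (γ : Gamma1 M) :
    δ * (γ : SL(2, ℤ)) * δ⁻¹ ∈ Gamma1 M := by
  have hγ0 : (γ : SL(2, ℤ)) ∈ Gamma0 M := Gamma1_in_Gamma0 M γ.2
  set X : SL(2, ℤ) := δ * (γ : SL(2, ℤ)) * δ⁻¹ with hX
  have hX0 : X ∈ Gamma0 M := Subgroup.mul_mem _ (Subgroup.mul_mem _ hδ hγ0) (Subgroup.inv_mem _ hδ)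
  have hXmul : X * δ = δ * (γ : SL(2, ℤ)) := by rw [hX, inv_mul_cancel_right]
  have hu : IsUnit ((δ 1 1 : ℤ) : ZMod M) := by
    have h1 := δ.det_coe
    rw [Matrix.det_fin_two] at h1
    have h2 := congrArg (Int.cast : ℤ → ZMod M) h1
    push_cast at h2
    rw [Gamma0_mem.mp hδ] at h2
    exact IsUnit.of_mul_eq_one _ (by rw [mul_comm]; simpa using h2)
  refine mem_Gamma1_of_mem_Gamma0 M hX0 ?_
  have h1 := HK.Coset_mul_apply_one_one X δ hX0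
  rw [hXmul, HK.Coset_mul_apply_one_one _ _ hδ, apply_one_one_of_mem_Gamma1 M γ.2, mul_one] at h1
  exact hu.mul_right_cancel (by rw [one_mul]; exact h1.symm)

/-- `γ ↦ δ γ δ⁻¹` on `Γ₁(M)`, `δ ∈ Γ₀(M)`. -/
def conjElt {δ : SL(2, ℤ)} (hδ : δ ∈ Gamma0 M) (γ : Gamma1 M) : Gamma1 M :=
  ⟨δ * (γ : SL(2, ℤ)) * δ⁻¹, conj_mem_Gamma1 M hδ γ⟩

theorem conjElt_spec {δ : SL(2, ℤ)} (hδ : δ ∈ Gamma0 M) (γ : Gamma1 M) :
    δ * (γ : SL(2, ℤ)) = (conjElt M hδ γ : SL(2, ℤ)) * δ := by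
  show _ = δ * (γ : SL(2, ℤ)) * δ⁻¹ * δ
  rw [inv_mul_cancel_right]

end

end Fermat.Agent.S48.Betti
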