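import Fermat.Agent.S48.Betti.Decomp

/-!
# S48 / BETTI : the period lattice of `Γ₁(M)` and its Hecke matrices

`L = perLat1 M` = image of `Γ₁(M)` in the dual of `S₂(Γ₁(M))`: a finitely generated torsion free
group, hence free of finite rank `r = bettiRank1 M` (we never need to know that `r = 2 g`).
Every endomorphism `A` of `S₂(Γ₁(M))` whose dual preserves `L` (`Stable`) has an integral matrix
`latMat A`; commuting endomorphisms have commuting matrices.  `T_p` and `⟨d⟩` are stable by the
transfer formulas.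
-/

set_option autoImplicit false

open scoped MatrixGroups
open CongruenceSubgroup

namespace Fermat.Agent.S48.Betti

noncomputable section

variable (M : ℕ) [NeZero M]

/-- The period homomorphism `γ ↦ (f ↦ ∫_γ f)`. -/
def perHom1 : Additive (Gamma1 M) →+ Module.Dual ℂ (CuspForm (Gamma1 M) 2) where
  toFun γ :=
    { toFun := fun f => per1 M f γ
      map_add' := fun f g => by rw [per1_add]; rfl
      map_smul' := fun c f => by rw [per1_smul]; rfl }
  map_zero' := by
    ext f
    exact map_zero (per1 M f)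
  map_add' γ δ := by
    ext f
    exact map_add (per1 M f) γ δ

@[simp] theorem perHom1_apply (γ : Additive (Gamma1 M)) (f : CuspForm (Gamma1 M) 2) :
    perHom1 M γ f = per1 M f γ := rfl

/-- The period lattice. -/
def perLat1 : AddSubgroup (Module.Dual ℂ (CuspForm (Gamma1 M) 2)) := (perHom1 M).range

/-- The period homomorphism, onto the period lattice. -/
def perPi1 : Additive (Gamma1 M) →+ perLat1 M := (perHom1 M).rangeRestrict

theorem perPi1_surjective : Function.Surjective (perPi1 M) := (perHom1 M).rangeRestrict_surjective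

@[simp] theorem coe_perPi1 (γ : Additive (Gamma1 M)) :
    ((perPi1 M γ : perLat1 M) : Module.Dual ℂ (CuspForm (Gamma1 M) 2)) = perHom1 M γ := rfl

theorem perPi1_eq_zero_iff (γ : Additive (Gamma1 M)) : perPi1 M γ = 0 ↔ perHom1 M γ = 0 := by
  rw [← coe_perPi1, ZeroMemClass.coe_eq_zero]

/-- the period homomorphism kills the parabolic elements (and `± 1`). -/
theorem perPi1_eq_zero_of_trace (γ : Gamma1 M)
    (hγ : ((γ : SL(2, ℤ)) : Matrix (Fin 2) (Fin 2) ℤ).trace ^ 2 = 4) :
    perPi1 M (Additive.ofMul γ) = 0 := by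
  rw [perPi1_eq_zero_iff]
  ext f
  exact per1_eq_zero_of_trace M f γ hγ

instance instFiniteperLat1 : Module.Finite ℤ (perLat1 M) := by
  have h0 : Group.FG SL(2, ℤ) := by
    rw [Group.fg_iff]
    exact ⟨{ModularGroup.S, ModularGroup.T}, SpecialLinearGroup.SL2Z_generators, by simp⟩
  have h : Group.FG (Gamma1 M) := inferInstance
  have h1 : AddGroup.FG (Additive (Gamma1 M)) := inferInstance
  have h2 : AddGroup.FG (perLat1 M) := AddGroup.fg_of_surjective (perPi1_surjective M)
  exact Module.Finite.iff_addGroup_fg.mpr h2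

theorem isAddTorsionFree_perLat1 : IsAddTorsionFree (perLat1 M) where
  nsmul_right_injective n hn a b hab := by
    apply Subtype.ext
    have h : (n : ℂ) • (a : Module.Dual ℂ (CuspForm (Gamma1 M) 2)) =
        (n : ℂ) • (b : Module.Dual ℂ (CuspForm (Gamma1 M) 2)) := by
      simp only [Nat.cast_smul_eq_nsmul]
      exact congrArg Subtype.val hab
    exact smul_right_injective _ (Nat.cast_ne_zero.mpr hn) h

instance instFreeperLat1 : Module.Free ℤ (perLat1 M) := by
  have := isAddTorsionFree_perLat1 M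
  exact Module.free_of_finite_type_torsion_free'

/-- The rank of the period lattice. -/
def bettiRank1 : ℕ := Module.finrank ℤ (perLat1 M)

/-- A basis of the period lattice. -/
def bettiBasis1 : Module.Basis (Fin (bettiRank1 M)) ℤ (perLat1 M) := Module.finBasis ℤ (perLat1 M)

/-- `A ∈ End S₂(Γ₁(M))` whose dual preserves the period lattice. -/
def Stable (A : Module.End ℂ (CuspForm (Gamma1 M) 2)) : Prop :=
  ∀ l ∈ perLat1 M, A.dualMap l ∈ perLat1 M

variable {M}

/-- The operator induced on the lattice. -/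
def latOp {A : Module.End ℂ (CuspForm (Gamma1 M) 2)} (hA : Stable M A) :
    perLat1 M →+ perLat1 M where
  toFun l := ⟨A.dualMap l.1, hA l.1 l.2⟩
  map_zero' := Subtype.ext (map_zero _)
  map_add' _ _ := Subtype.ext (map_add _ _ _)

theorem latOp_apply {A : Module.End ℂ (CuspForm (Gamma1 M) 2)} (hA : Stable M A) (l : perLat1 M)
    (f : CuspForm (Gamma1 M) 2) : (latOp hA l).1 f = l.1 (A f) := rfl

/-- The matrix of the operator: `A bᵢ = ∑ⱼ (latMat A) i j • bⱼ`. -/
def latMat {A : Module.End ℂ (CuspForm (Gamma1 M) 2)} (hA : Stable M A) :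
    Matrix (Fin (bettiRank1 M)) (Fin (bettiRank1 M)) ℤ :=
  fun i j => (bettiBasis1 M).repr (latOp hA (bettiBasis1 M i)) j

theorem latOp_basis {A : Module.End ℂ (CuspForm (Gamma1 M) 2)} (hA : Stable M A)
    (i : Fin (bettiRank1 M)) :
    latOp hA (bettiBasis1 M i) = ∑ j, latMat hA i j • bettiBasis1 M j :=
  ((bettiBasis1 M).sum_repr _).symm

theorem latOp_comm {A B : Module.End ℂ (CuspForm (Gamma1 M) 2)} (hA : Stable M A)
    (hB : Stable M B) (h : Commute A B) (l : perLat1 M) :
    latOp hA (latOp hB l) = latOp hB (latOp hA l) := by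
  apply Subtype.ext
  ext f
  rw [latOp_apply, latOp_apply, latOp_apply, latOp_apply]
  congr 1
  exact (LinearMap.congr_fun h.eq f).symm

theorem latMat_comm {A B : Module.End ℂ (CuspForm (Gamma1 M) 2)} (hA : Stable M A)
    (hB : Stable M B) (h : Commute A B) : Commute (latMat hA) (latMat hB) := by
  have key : ∀ {A B : Module.End ℂ (CuspForm (Gamma1 M) 2)} (hA : Stable M A) (hB : Stable M B) i,
      latOp hB (latOp hA (bettiBasis1 M i))
        = ∑ k, (latMat hA * latMat hB) i k • bettiBasis1 M k := by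
    intro A B hA hB i
    rw [latOp_basis, map_sum]
    simp only [map_zsmul, latOp_basis, Finset.smul_sum, smul_smul, Matrix.mul_apply,
      Finset.sum_smul]
    exact Finset.sum_comm
  show latMat hA * latMat hB = latMat hB * latMat hA
  ext i k
  have h' := (key hA hB i).symm.trans ((latOp_comm hB hA h.symm _).trans (key hB hA i))
  have h2 := congrArg (fun v => (bettiBasis1 M).repr v k) h'
  simpa [Finsupp.single_apply] using h2

variable (M)

/-- The period map in coordinates. -/
def bettiPer1 : CuspForm (Gamma1 M) 2 →ₗ[ℂ] (Fin (bettiRank1 M) → ℂ) where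
  toFun f i := (bettiBasis1 M i).1 f
  map_add' f g := by funext i; simp
  map_smul' c f := by funext i; simp

@[simp] theorem bettiPer1_apply (f : CuspForm (Gamma1 M) 2) (i : Fin (bettiRank1 M)) :
    bettiPer1 M f i = (bettiBasis1 M i).1 f := rfl

theorem bettiPer1_injective : Function.Injective (bettiPer1 M) := by
  rw [← LinearMap.ker_eq_bot, LinearMap.ker_eq_bot']
  intro f hf
  have h1 : ∀ l : perLat1 M, l.1 f = 0 := by
    intro l
    rw [← (bettiBasis1 M).sum_repr l, AddSubgroup.val_finsetSum, LinearMap.sum_apply]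
    refine Finset.sum_eq_zero fun i _ => ?_
    have : (bettiBasis1 M i).1 f = 0 := congrFun hf i
    simp [this]
  apply eq_zero_of_re_per1_eq_zero M f
  intro γ
  have := h1 (perPi1 M (Additive.ofMul γ))
  rw [coe_perPi1, perHom1_apply] at this
  rw [this, Complex.zero_re]

variable {M}

theorem bettiPer1_op {A : Module.End ℂ (CuspForm (Gamma1 M) 2)} (hA : Stable M A)
    (f : CuspForm (Gamma1 M) 2) :
    bettiPer1 M (A f) = ((latMat hA).map (Int.castRingHom ℂ)).mulVec (bettiPer1 M f) := by
  funext i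
  rw [bettiPer1_apply, ← latOp_apply hA, latOp_basis, AddSubgroup.val_finsetSum,
    LinearMap.sum_apply, Matrix.mulVec, dotProduct]
  refine Finset.sum_congr rfl fun j _ => ?_
  rw [Matrix.map_apply, bettiPer1_apply]
  simp

variable (M)

/-- `T_p` is stable. -/
theorem stable_heckeT (p : HK.GoodPrime M) : Stable M (HK.heckeT 2 p) := by
  have : NeZero p.1 := ⟨p.2.1.ne_zero⟩
  rintro _ ⟨γ, rfl⟩
  obtain ⟨D⟩ := nonempty_heckeDecomp1 M p (Additive.toMul γ)
  have : (HK.heckeT 2 p).dualMap (perHom1 M γ)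
      = ∑ x, perHom1 M (Additive.ofMul (D.γ' x)) := by
    ext f
    rw [LinearMap.dualMap_apply, perHom1_apply, LinearMap.sum_apply]
    simp only [perHom1_apply]
    exact per1_heckeT M p f (Additive.toMul γ) D
  rw [this]
  exact sum_mem fun x _ => ⟨_, rfl⟩

/-- `⟨d⟩` is stable. -/
theorem stable_diamond (d : (ZMod M)ˣ) : Stable M (HK.diamond 2 d) := by
  rintro _ ⟨γ, rfl⟩
  refine ⟨Additive.ofMul (conjElt M (HK.diaRep_mem M d) (Additive.toMul γ)), ?_⟩
  ext f
  rw [LinearMap.dualMap_apply, perHom1_apply, perHom1_apply]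
  exact (per1_diamond M d f (HK.diaRep_mem M d) (HK.diaRep_apply M d) (Additive.toMul γ) _
    (conjElt_spec M _ _)).symm

/-- transfer formula on the lattice, `T_p`. -/
theorem latOp_heckeT_perPi1 (p : HK.GoodPrime M) [NeZero p.1] (γ : Gamma1 M)
    (D : HeckeDecomp1 M p γ) :
    latOp (stable_heckeT M p) (perPi1 M (Additive.ofMul γ))
      = ∑ x, perPi1 M (Additive.ofMul (D.γ' x)) := by
  apply Subtype.ext
  ext f
  rw [latOp_apply, coe_perPi1, perHom1_apply, AddSubgroup.val_finsetSum, LinearMap.sum_apply]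
  simp only [coe_perPi1, perHom1_apply]
  exact per1_heckeT M p f γ D

/-- transfer formula on the lattice, `⟨d⟩`. -/
theorem latOp_diamond_perPi1 (d : (ZMod M)ˣ) {δ : SL(2, ℤ)}
    (hδ : δ ∈ Gamma0 M) (hd : ((δ 1 1 : ℤ) : ZMod M) = (d : ZMod M)) (γ γ' : Gamma1 M)
    (h : δ * (γ : SL(2, ℤ)) = (γ' : SL(2, ℤ)) * δ) :
    latOp (stable_diamond M d) (perPi1 M (Additive.ofMul γ)) = perPi1 M (Additive.ofMul γ') := by
  apply Subtype.ext
  ext f
  rw [latOp_apply, coe_perPi1, perHom1_apply, coe_perPi1, perHom1_apply]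
  exact per1_diamond M d f hδ hd γ γ' h

/-- The integral matrix of `T_p`. -/
def bettiT1 (p : HK.GoodPrime M) : Matrix (Fin (bettiRank1 M)) (Fin (bettiRank1 M)) ℤ :=
  latMat (stable_heckeT M p)

/-- The integral matrix of `⟨d⟩`. -/
def bettiD1 (d : (ZMod M)ˣ) : Matrix (Fin (bettiRank1 M)) (Fin (bettiRank1 M)) ℤ :=
  latMat (stable_diamond M d)

theorem bettiT1_comm (p q : HK.GoodPrime M) : Commute (bettiT1 M p) (bettiT1 M q) :=
  latMat_comm _ _ (HK.heckeT_comm 2 p q)

theorem bettiT1_bettiD1_comm (p : HK.GoodPrime M) (d : (ZMod M)ˣ) :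
    Commute (bettiT1 M p) (bettiD1 M d) :=
  latMat_comm _ _ (HK.diamond_heckeT 2 d p).symm

theorem bettiD1_comm (d d' : (ZMod M)ˣ) : Commute (bettiD1 M d) (bettiD1 M d') :=
  latMat_comm _ _ (by
    show HK.diamond 2 d ∘ₗ HK.diamond 2 d' = HK.diamond 2 d' ∘ₗ HK.diamond 2 d
    rw [← HK.diamond_mul, ← HK.diamond_mul, mul_comm])

theorem bettiPer1_T (p : HK.GoodPrime M) (f : CuspForm (Gamma1 M) 2) :
    bettiPer1 M (HK.heckeT 2 p f)
      = ((bettiT1 M p).map (Int.castRingHom ℂ)).mulVec (bettiPer1 M f) :=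
  bettiPer1_op (stable_heckeT M p) f

theorem bettiPer1_D (d : (ZMod M)ˣ) (f : CuspForm (Gamma1 M) 2) :
    bettiPer1 M (HK.diamond 2 d f)
      = ((bettiD1 M d).map (Int.castRingHom ℂ)).mulVec (bettiPer1 M f) :=
  bettiPer1_op (stable_diamond M d) f

end

end Fermat.Agent.S48.Betti
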