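import Fermat.Agent.S48.Betti.Chars
import Fermat.Agent.S48.ModL2.Datum

/-!
# S48 / BETTI : summary (the Betti half of `ESDatum1 M ℓ`)

Fields of `ESDatum1 M ℓ` delivered here (any level `M`, no neatness needed):

* `r := bettiRank1 M`, `TΛ := bettiT1 M`, `RΛ p := bettiD1 M p.unit`,
  `TT_comm`, `TR_comm`, `RR_comm`  (`bettiT1_comm`, `bettiT1_bettiD1_comm`, `bettiD1_comm`);
* `per := bettiPer1 M`, `per_injective`, `per_T`, `per_R`.

For block KUM (`e : (ℤ/ℓ)^r → V`): compose the injective homomorphism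
`charOf1 M m : (Fin r → ZMod m) →+ Additive (neChars1 M m)` (characters `Γ₁(M) → μ_m(ℂ)` killing all
non hyperbolic elements, `(charOf1 M m x).1 = chiOf1 M m x`) with the (injective) Kummer map
`neChars1 M m → V`.  Hecke equivariance of `chiOf1` in relational form:

* `chiOf1_T` : `χ_{TΛ p x} γ = ∏_y χ_x (D.γ' y)` for EVERY decomposition
  `alpha p y * γ = γ'_y * alpha p (σ y)` (`D : HeckeDecomp1 M p γ`, `alpha p y = Coset_dl p y * heckeRep p y`;
  they exist: `nonempty_heckeDecomp1`);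
* `chiOf1_D` : `χ_{RΛ d x} γ = χ_x γ'` whenever `δ γ = γ' δ`, `δ ∈ Γ₀(M)`, `δ₁₁ ≡ d` (e.g. `γ' = conjElt`).
-/

set_option autoImplicit false

open CongruenceSubgroup

namespace Fermat.Agent.S48.Betti

noncomputable section

/-- The Betti half of `ESDatum1`. -/
structure BettiPart (M : ℕ) [NeZero M] where
  r : ℕ
  TΛ : HK.GoodPrime M → Matrix (Fin r) (Fin r) ℤ
  RΛ : HK.GoodPrime M → Matrix (Fin r) (Fin r) ℤ
  TT_comm : ∀ p q, Commute (TΛ p) (TΛ q)
  TR_comm : ∀ p q, Commute (TΛ p) (RΛ q)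
  RR_comm : ∀ p q, Commute (RΛ p) (RΛ q)
  per : CuspForm (Gamma1 M) 2 →ₗ[ℂ] (Fin r → ℂ)
  per_injective : Function.Injective per
  per_T : ∀ (p : HK.GoodPrime M) (f : CuspForm (Gamma1 M) 2),
    per (HK.heckeT 2 p f) = ((TΛ p).map (Int.castRingHom ℂ)).mulVec (per f)
  per_R : ∀ (p : HK.GoodPrime M) (f : CuspForm (Gamma1 M) 2),
    per (HK.diamond 2 p.unit f) = ((RΛ p).map (Int.castRingHom ℂ)).mulVec (per f)

/-- **Block BETTI.** -/
def bettiPart (M : ℕ) [NeZero M] : BettiPart M where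
  r := bettiRank1 M
  TΛ := bettiT1 M
  RΛ p := bettiD1 M p.unit
  TT_comm := bettiT1_comm M
  TR_comm p q := bettiT1_bettiD1_comm M p q.unit
  RR_comm p q := bettiD1_comm M p.unit q.unit
  per := bettiPer1 M
  per_injective := bettiPer1_injective M
  per_T := bettiPer1_T M
  per_R p := bettiPer1_D M p.unit

end

end Fermat.Agent.S48.Betti
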