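import Fermat.Agent.ES.Period
import Fermat.Agent.S16.Lower.HeckePeriod
import Fermat.Agent.S48.HK.Hecke

/-!
# S48 / BETTI : the period map of `Γ₁(M)`

`per1 M f : Γ₁(M) → ℂ`, `γ ↦ ∫_{z}^{γ z} f(τ) dτ` for `f ∈ S₂(Γ₁(M))`:
additive in `γ`, linear in `f`, trivial on parabolic elements, injective in `f`, and the general
transformation formula under `f ↦ ∑ f ∣ αᵢ`.
-/

set_option autoImplicit false

open UpperHalfPlane Filter Topology Function
open scoped MatrixGroups ModularForm Manifold Real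
open CongruenceSubgroup Matrix.SpecialLinearGroup

namespace Fermat.Agent.S48.Betti

open Fermat.Agent.ES Fermat.Agent.S16.Lower

local notation "𝕢" => Function.Periodic.qParam

noncomputable section

variable (M : ℕ) [NeZero M]

omit [NeZero M] in
theorem slash_eq_of_mem_Gamma1 (f : CuspForm (Gamma1 M) 2) {γ : SL(2, ℤ)}
    (hγ : γ ∈ Gamma1 M) : (f : ℍ → ℂ) ∣[(2 : ℤ)] γ = f :=
  SlashInvariantForm.slash_action_eqn f _ (Subgroup.mem_map_of_mem _ hγ)

theorem exists_primitive (f : CuspForm (Gamma1 M) 2) :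
    ∃ F : ℍ → ℂ, ∀ τ : ℍ, HasDerivAt (F ∘ ofComplex) (f τ) ↑τ := by
  obtain ⟨F, hF, -⟩ := exists_primitive_slash f 1
  simp only [SlashAction.slash_one] at hF
  exact ⟨F, hF⟩

/-- a primitive of `f`. -/
def prim (f : CuspForm (Gamma1 M) 2) : ℍ → ℂ := (exists_primitive M f).choose

theorem prim_spec (f : CuspForm (Gamma1 M) 2) (τ : ℍ) :
    HasDerivAt (prim M f ∘ ofComplex) (f τ) ↑τ := (exists_primitive M f).choose_spec τ

omit [NeZero M] in
/-- `F (γ z) - F z` does not depend on `z`. -/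
theorem sub_eq_sub_of_primitive (f : CuspForm (Gamma1 M) 2) {F : ℍ → ℂ}
    (hF : ∀ τ : ℍ, HasDerivAt (F ∘ ofComplex) (f τ) ↑τ) (γ : Gamma1 M) (z z' : ℍ) :
    F ((γ : SL(2, ℤ)) • z) - F z = F ((γ : SL(2, ℤ)) • z') - F z' := by
  refine sub_eq_sub_of_hasDerivAt (F := fun w => F ((γ : SL(2, ℤ)) • w)) (f := f) (fun τ => ?_) hF _ _
  have := hasDerivAt_comp_smul hF (γ : SL(2, ℤ)) τ
  rwa [slash_eq_of_mem_Gamma1 M f γ.2] at this

/-- The period homomorphism of `f ∈ S₂(Γ₁(M))`. -/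
def per1 (f : CuspForm (Gamma1 M) 2) : Additive (Gamma1 M) →+ ℂ :=
  AddMonoidHom.mk' (fun γ => prim M f ((γ.toMul : SL(2, ℤ)) • UpperHalfPlane.I)
      - prim M f UpperHalfPlane.I) (by
    intro γ γ'
    have h := sub_eq_sub_of_primitive M f (prim_spec M f) γ.toMul
      ((γ'.toMul : SL(2, ℤ)) • UpperHalfPlane.I) UpperHalfPlane.I
    have e : (((γ + γ').toMul : Gamma1 M) : SL(2, ℤ)) • UpperHalfPlane.I
        = (γ.toMul : SL(2, ℤ)) • ((γ'.toMul : SL(2, ℤ)) • UpperHalfPlane.I) := by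
      rw [toMul_add, Subgroup.coe_mul, mul_smul]
    rw [e]
    linear_combination h)

/-- The period map can be computed with any primitive and any base point. -/
theorem per1_apply (f : CuspForm (Gamma1 M) 2) {F : ℍ → ℂ}
    (hF : ∀ τ : ℍ, HasDerivAt (F ∘ ofComplex) (f τ) ↑τ) (γ : Gamma1 M) (z : ℍ) :
    per1 M f (Additive.ofMul γ) = F ((γ : SL(2, ℤ)) • z) - F z := by
  show prim M f ((γ : SL(2, ℤ)) • UpperHalfPlane.I) - prim M f UpperHalfPlane.I = _
  rw [sub_eq_sub_of_primitive M f (prim_spec M f) γ UpperHalfPlane.I z]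
  have := sub_eq_sub_of_hasDerivAt (prim_spec M f) hF ((γ : SL(2, ℤ)) • z) z
  linear_combination this

theorem per1_add (f g : CuspForm (Gamma1 M) 2) : per1 M (f + g) = per1 M f + per1 M g := by
  refine AddMonoidHom.ext fun γ => ?_
  have hFG : ∀ τ : ℍ, HasDerivAt ((fun z => prim M f z + prim M g z) ∘ ofComplex) ((f + g) τ) ↑τ :=
    fun τ => (prim_spec M f τ).add (prim_spec M g τ)
  have h1 := per1_apply M (f + g) hFG (Additive.toMul γ) UpperHalfPlane.I
  have h2 := per1_apply M f (prim_spec M f) (Additive.toMul γ) UpperHalfPlane.I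
  have h3 := per1_apply M g (prim_spec M g) (Additive.toMul γ) UpperHalfPlane.I
  simp only [ofMul_toMul] at h1 h2 h3
  rw [AddMonoidHom.add_apply, h1, h2, h3]
  ring

theorem per1_smul (c : ℂ) (f : CuspForm (Gamma1 M) 2) : per1 M (c • f) = c • per1 M f := by
  refine AddMonoidHom.ext fun γ => ?_
  have hcF : ∀ τ : ℍ, HasDerivAt ((fun z => c * prim M f z) ∘ ofComplex) ((c • f) τ) ↑τ :=
    fun τ => (prim_spec M f τ).const_mul c
  have h1 := per1_apply M (c • f) hcF (Additive.toMul γ) UpperHalfPlane.I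
  have h2 := per1_apply M f (prim_spec M f) (Additive.toMul γ) UpperHalfPlane.I
  simp only [ofMul_toMul] at h1 h2
  rw [AddMonoidHom.smul_apply, h1, h2, smul_eq_mul]
  ring

/-- Periods over parabolic elements (and `± 1`) vanish. -/
theorem per1_eq_zero_of_trace (f : CuspForm (Gamma1 M) 2) (γ : Gamma1 M)
    (hγ : ((γ : SL(2, ℤ)) : Matrix (Fin 2) (Fin 2) ℤ).trace ^ 2 = 4) :
    per1 M f (Additive.ofMul γ) = 0 := by
  have hF := prim_spec M f
  set F := prim M f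
  obtain ⟨δ, hδ⟩ := exists_conj_upperTriangular γ hγ
  obtain ⟨L, hL⟩ := exists_tendsto_smul_of_hasDerivAt f hF δ
  set κ : SL(2, ℤ) := δ⁻¹ * γ * δ with hκ
  have h1 : ∀ w : ℍ, per1 M f (Additive.ofMul γ) = F (δ • (κ • w)) - F (δ • w) := by
    intro w
    rw [per1_apply M f hF γ (δ • w)]
    congr 2
    simp [hκ, mul_smul]
  have hκ' : ((κ : SL(2, ℤ)) : GL (Fin 2) ℝ) 1 0 = 0 := by
    simp [hδ]
  have h2 : Tendsto (fun w : ℍ => F (δ • (κ • w))) atImInfty (𝓝 L) :=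
    hL.comp (tendsto_smul_atImInfty hκ')
  have h3 : Tendsto (fun w : ℍ => F (δ • (κ • w)) - F (δ • w)) atImInfty (𝓝 (L - L)) := h2.sub hL
  have h4 : (fun w : ℍ => F (δ • (κ • w)) - F (δ • w)) =
      fun _ => per1 M f (Additive.ofMul γ) := funext fun w => (h1 w).symm
  rw [h4, sub_self] at h3
  exact tendsto_nhds_unique tendsto_const_nhds h3

/-- Periods of `∑ f ∣ αᵢ`. -/
theorem per1_hecke {ι : Type*} [Fintype ι] (α : ι → GL (Fin 2) ℝ)
    (hdet : ∀ i, 0 < (α i).val.det) (f Tf : CuspForm (Gamma1 M) 2)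
    (hT : (⇑Tf : ℍ → ℂ) = ∑ i, (⇑f : ℍ → ℂ) ∣[(2 : ℤ)] α i)
    (γ : Gamma1 M) (σ : Equiv.Perm ι) (γ' : ι → Gamma1 M)
    (hmul : ∀ i, α i * mapGL ℝ (γ : SL(2, ℤ)) = mapGL ℝ (γ' i : SL(2, ℤ)) * α (σ i)) :
    per1 M Tf (Additive.ofMul γ) = ∑ i, per1 M f (Additive.ofMul (γ' i)) := by
  have hF := prim_spec M f
  set F := prim M f
  have hG : ∀ τ : ℍ, HasDerivAt ((fun w : ℍ => ∑ i, F (α i • w)) ∘ ofComplex) (Tf τ) ↑τ := by
    intro τ
    have h1 : HasDerivAt (fun w : ℂ => ∑ i, ((fun w : ℍ => F (α i • w)) ∘ ofComplex) w)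
        (∑ i, ((⇑f : ℍ → ℂ) ∣[(2 : ℤ)] α i) τ) ↑τ :=
      HasDerivAt.fun_sum fun i _ => hasDerivAt_comp_smul_GL hF (α i) (hdet i) τ
    rw [hT, Finset.sum_apply]
    exact h1
  rw [per1_apply M Tf hG γ UpperHalfPlane.I]
  have h2 : ∀ i, per1 M f (Additive.ofMul (γ' i))
      = F (α i • ((γ : SL(2, ℤ)) • UpperHalfPlane.I)) - F (α (σ i) • UpperHalfPlane.I) := by
    intro i
    rw [per1_apply M f hF (γ' i) (α (σ i) • UpperHalfPlane.I)]
    congr 2
    have e1 : ((γ' i : SL(2, ℤ)) • (α (σ i) • UpperHalfPlane.I) : ℍ)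
        = (mapGL ℝ (γ' i : SL(2, ℤ)) * α (σ i)) • UpperHalfPlane.I := by
      rw [mul_smul]; rfl
    have e2 : (α i • ((γ : SL(2, ℤ)) • UpperHalfPlane.I) : ℍ)
        = (α i * mapGL ℝ (γ : SL(2, ℤ))) • UpperHalfPlane.I := by
      rw [mul_smul]; rfl
    rw [e1, e2, hmul]
  simp only [h2, Finset.sum_sub_distrib]
  rw [Equiv.sum_comp σ (fun i => F (α i • UpperHalfPlane.I))]

/-- A weight 2 cusp form on `Γ₁(M)` all of whose periods are purely imaginary vanishes. -/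
theorem eq_zero_of_re_per1_eq_zero (φ : CuspForm (Gamma1 M) 2)
    (h : ∀ γ : Gamma1 M, (per1 M φ (Additive.ofMul γ)).re = 0) : φ = 0 := by
  have hF := prim_spec M φ
  set F := prim M φ
  obtain ⟨W, hW, hΨ⟩ := exists_disc_rep φ hF
  have hW' : (0 : ℝ) < W := by exact_mod_cast hW
  choose Ψ hΨd hΨe using hΨ
  -- invariance of the real part
  have hinv : ∀ (γ : Gamma1 M) (z : ℍ), (F ((γ : SL(2, ℤ)) • z)).re = (F z).re := by
    intro γ z
    have := h γ
    rw [per1_apply M φ hF γ z, Complex.sub_re] at this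
    linarith
  set r : ℝ := Real.exp (-π / W) with hr
  have hr1 : r < 1 := by
    rw [hr, Real.exp_lt_one_iff]
    exact div_neg_of_neg_of_pos (by linarith [Real.pi_pos]) hW'
  have hr0 : 0 < r := Real.exp_pos _
  have hsub : Metric.closedBall (0 : ℂ) r ⊆ Metric.ball 0 1 := Metric.closedBall_subset_ball hr1
  -- maxima on the closed ball
  have hmax : ∀ δ : SL(2, ℤ), ∃ x ∈ Metric.closedBall (0 : ℂ) r,
      IsMaxOn (fun q => (Ψ δ q).re) (Metric.closedBall (0 : ℂ) r) x := by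
    intro δ
    refine (isCompact_closedBall (0 : ℂ) r).exists_isMaxOn ⟨0, by simp [hr0.le]⟩ ?_
    exact Complex.continuous_re.comp_continuousOn ((hΨd δ).continuousOn.mono hsub)
  choose x hx hxmax using hmax
  let rep : SL(2, ℤ) ⧸ Gamma1 M → SL(2, ℤ) := fun q => (q.out)⁻¹
  obtain ⟨q₀, hq₀⟩ := Finite.exists_max (fun q : SL(2, ℤ) ⧸ Gamma1 M => (Ψ (rep q) (x (rep q))).re)
  set δ₀ := rep q₀ with hδ₀
  set m₀ := (Ψ δ₀ (x δ₀)).re with hm₀
  -- global bound
  have hbound : ∀ τ : ℍ, (F τ).re ≤ m₀ := by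
    intro τ
    obtain ⟨g, hg⟩ := ModularGroup.exists_one_half_le_im_smul τ
    obtain ⟨γ, hγ⟩ := QuotientGroup.mk_out_eq_mul (Gamma1 M) g
    set q : SL(2, ℤ) ⧸ Gamma1 M := (g : SL(2, ℤ) ⧸ Gamma1 M) with hq
    have e1 : τ = (γ : SL(2, ℤ)) • (rep q • (g • τ)) := by
      simp only [rep, hγ, ← mul_smul]
      simp
    have e2 : (F τ).re = (Ψ (rep q) (𝕢 (W : ℝ) ((g • τ : ℍ) : ℂ))).re := by
      rw [← hΨe, ← hinv γ (rep q • (g • τ)), ← e1]
    have e3 : 𝕢 (W : ℝ) ((g • τ : ℍ) : ℂ) ∈ Metric.closedBall (0 : ℂ) r := by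
      rw [mem_closedBall_zero_iff, Function.Periodic.norm_qParam, hr]
      apply Real.exp_le_exp.mpr
      rw [div_le_div_iff_of_pos_right hW']
      have : (1 : ℝ) / 2 ≤ ((g • τ : ℍ) : ℂ).im := hg
      nlinarith [Real.pi_pos]
    rw [e2]
    exact (hxmax (rep q) e3).trans (hq₀ q)
  -- maximum principle on the disc
  have hMaxOn : IsMaxOn (norm ∘ (fun q => Complex.exp (Ψ δ₀ q))) (Metric.ball 0 1) (x δ₀) := by
    intro y hy
    simp only [Function.comp, Complex.norm_exp, Set.mem_ofPred_eq]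
    apply Real.exp_le_exp.mpr
    by_cases hy0 : y = 0
    · subst hy0
      exact hxmax δ₀ (by simp [hr0.le])
    · have hy1 : ‖y‖ < 1 := by simpa using hy
      have him := Function.Periodic.im_invQParam_pos_of_norm_lt_one hW' hy1 hy0
      let w : ℍ := ⟨Function.Periodic.invQParam W y, him⟩
      have : 𝕢 (W : ℝ) w = y := Function.Periodic.qParam_right_inv hW'.ne' hy0
      rw [← this, ← hΨe]
      exact hbound _
  have hconst := Complex.eqOn_of_isPreconnected_of_isMaxOn_norm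
    (convex_ball (0 : ℂ) 1).isPreconnected Metric.isOpen_ball
    (f := fun q => Complex.exp (Ψ δ₀ q)) (fun q hq => ((hΨd δ₀ q hq).cexp)) (hsub (hx δ₀)) hMaxOn
  set C := Complex.exp (Ψ δ₀ (x δ₀)) with hC
  have hexp : ∀ τ : ℍ, Complex.exp (F τ) = C := by
    intro τ
    have e1 : τ = δ₀ • (δ₀⁻¹ • τ) := by simp
    have hq : 𝕢 (W : ℝ) ((δ₀⁻¹ • τ : ℍ) : ℂ) ∈ Metric.ball (0 : ℂ) 1 := by
      simpa using Function.Periodic.norm_qParam_lt_one hW' (δ₀⁻¹ • τ).im_pos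
    have := hconst hq
    simp only [Function.const] at this
    rw [e1, hΨe]
    exact this
  ext τ
  have h1 : HasDerivAt (fun z => Complex.exp ((F ∘ ofComplex) z)) (Complex.exp (F τ) * φ τ) ↑τ := by
    have := (hF τ).cexp
    simpa using this
  have h2 : HasDerivAt (fun z => Complex.exp ((F ∘ ofComplex) z)) 0 ↑τ := by
    refine (hasDerivAt_const (τ : ℂ) C).congr_of_eventuallyEq (Eventually.of_forall fun z => ?_)
    exact hexp _
  have h3 := h1.unique h2
  simpa [Complex.exp_ne_zero] using h3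

end

end Fermat.Agent.S48.Betti
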